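import Fermat.Agent.CubicCount.CharCount
import Fermat.Agent.ConductorDiscr.PlusPart
import Fermat.Agent.Root.SummaryKroneckerWeber
import Mathlib.NumberTheory.NumberField.InfinitePlace.Ramification

/-!
# Cyclic cubic fields and cubic characters

A cyclic cubic field in `ℂ` has discriminant `f ^ 2`, `f` the conductor of its two nontrivial characters, and two
times the number of fields of conductor `f` is the number of primitive cubic characters mod `f`.
-/

set_option autoImplicit false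
set_option linter.style.haveILetI false

noncomputable section

open NumberField DirichletCharacter IntermediateField
open scoped Classical

namespace FA.CubicCount

/-- `ℚ(μ_n)` inside `ℂ`. -/
def rootsField (n : ℕ) : IntermediateField ℚ ℂ :=
  adjoin ℚ {b : ℂ | ∃ k ∈ ({n} : Set ℕ), k ≠ 0 ∧ b ^ k = 1}

instance rootsField_isCyclotomicExtension (n : ℕ) [NeZero n] :
    IsCyclotomicExtension {n} ℚ (rootsField n) :=
  isCyclotomicExtension_adjoin_of_exists_isPrimitiveRoot {n} ℚ ℂ
    fun _ _ hk0 => ⟨_, Complex.isPrimitiveRoot_exp _ hk0⟩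

instance rootsField_numberField (n : ℕ) [NeZero n] : NumberField (rootsField n) :=
  IsCyclotomicExtension.numberField {n} ℚ _

instance rootsField_isAbelianGalois (n : ℕ) [NeZero n] : IsAbelianGalois ℚ (rootsField n) :=
  IsCyclotomicExtension.isAbelianGalois {n} ℚ _

theorem rootsField_mono {m n : ℕ} (h : m ∣ n) (hn : n ≠ 0) : rootsField m ≤ rootsField n := by
  refine adjoin.mono ℚ _ _ ?_
  rintro b ⟨k, hk, -, hb⟩
  rw [Set.mem_singleton_iff] at hk
  subst hk
  obtain ⟨c, rfl⟩ := h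
  exact ⟨_, Set.mem_singleton _, hn, by rw [pow_mul, hb, one_pow]⟩

/-- The cyclic cubic fields with a condition on the absolute value of the discriminant. -/
def cubicFields (P : ℕ → Prop) : Set (IntermediateField ℚ ℂ) :=
  {F | Module.finrank ℚ F = 3 ∧ IsGalois ℚ F ∧ ∃ _ : NumberField F, P (discr F).natAbs}

/-- A cubic Galois extension is abelian. -/
theorem isAbelianGalois_cubic (F : Type*) [Field F] [Algebra ℚ F] [IsGalois ℚ F] (h3 : Module.finrank ℚ F = 3) :
    IsAbelianGalois ℚ F := by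
  haveI : FiniteDimensional ℚ F := Module.finite_of_finrank_pos (by omega)
  haveI : Fact (Nat.Prime 3) := ⟨Nat.prime_three⟩
  haveI : IsCyclic Gal(F/ℚ) := isCyclic_of_prime_card (p := 3) (by rw [IsGalois.card_aut_eq_finrank, h3])
  letI : CommGroup Gal(F/ℚ) := IsCyclic.commGroup
  exact { is_comm := ⟨mul_comm⟩ }

set_option backward.isDefEq.respectTransparency false in
/-- An abelian subfield of `ℂ` lies in a cyclotomic one, of any multiple of the level. -/
theorem exists_le_rootsField (F : IntermediateField ℚ ℂ) [FiniteDimensional ℚ F] [IsAbelianGalois ℚ F]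
    (N : ℕ) [NeZero N] : ∃ n : ℕ, N ∣ n ∧ n ≠ 0 ∧ F ≤ rootsField n := by
  obtain ⟨m, hm, ⟨f⟩⟩ := FA.Summary.kroneckerWeber_cyclotomicField F
  haveI : NeZero m := ⟨hm.ne'⟩
  haveI : NeZero (m : ℚ) := ⟨Nat.cast_ne_zero.mpr hm.ne'⟩
  haveI : IsCyclotomicExtension {m} ℚ (CyclotomicField m ℚ) := CyclotomicField.isCyclotomicExtension m ℚ
  refine ⟨m * N, dvd_mul_left N m, mul_ne_zero hm.ne' (NeZero.ne N),
    le_trans ?_ (rootsField_mono (dvd_mul_right m N) (mul_ne_zero hm.ne' (NeZero.ne N)))⟩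
  let ψ : CyclotomicField m ℚ →ₐ[ℚ] ℂ := IsAlgClosed.lift
  obtain ⟨ζ, hζ⟩ := (CyclotomicField.isCyclotomicExtension m ℚ).exists_isPrimitiveRoot
    (Set.mem_singleton m) hm.ne'
  have hψ : ∀ y, ψ y ∈ rootsField m := fun y => by
    have hy : y ∈ Algebra.adjoin ℚ ({ζ} : Set (CyclotomicField m ℚ)) := by
      rw [IsCyclotomicExtension.adjoin_primitive_root_eq_top hζ]
      trivial
    have hle : Algebra.adjoin ℚ ({ζ} : Set (CyclotomicField m ℚ)) ≤ (rootsField m).toSubalgebra.comap ψ := by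
      refine Algebra.adjoin_le (Set.singleton_subset_iff.mpr ?_)
      exact subset_adjoin ℚ _ ⟨m, Set.mem_singleton m, hm.ne', by rw [← map_pow, hζ.pow_eq_one, map_one]⟩
    exact hle hy
  intro x hx
  rw [← AlgHom.fieldRange_of_normal (ψ.comp f)] at hx
  obtain ⟨y, rfl⟩ := hx
  exact hψ _

/-- A group of three characters has discriminant the square of a conductor. -/
theorem prod_conductor_eq_sq {n : ℕ} [NeZero n] (X : Subgroup (DirichletCharacter ℂ n))
    (h : Nat.card X = 3) {χ : DirichletCharacter ℂ n} (hχ : χ ∈ X) (h1 : χ ≠ 1) :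
    ∏ ψ ∈ Finset.univ.filter (fun ψ => ψ ∈ X), ψ.conductor = χ.conductor ^ 2 := by
  have h3 : χ ^ 3 = 1 := orderOf_dvd_iff_pow_eq_one.mp (h ▸ Subgroup.orderOf_dvd_natCard _ hχ)
  have hne : χ ≠ χ⁻¹ := fun e => h1 <| by
    rw [← h3, pow_succ, pow_two, eq_inv_iff_mul_eq_one.mp e, one_mul]
  have hset : Finset.univ.filter (fun ψ => ψ ∈ X) = {1, χ, χ⁻¹} := by
    refine (Finset.eq_of_subset_of_card_le ?_ ?_).symm
    · intro ψ hψ
      simp only [Finset.mem_insert, Finset.mem_singleton] at hψ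
      rw [Finset.mem_filter]
      rcases hψ with rfl | rfl | rfl
      exacts [⟨Finset.mem_univ _, X.one_mem⟩, ⟨Finset.mem_univ _, hχ⟩, ⟨Finset.mem_univ _, X.inv_mem hχ⟩]
    · rw [← Fintype.card_subtype, ← Nat.card_eq_fintype_card, h, Finset.card_insert_of_notMem (by
        simp [eq_comm, h1]), Finset.card_pair hne]
  rw [hset, Finset.prod_insert (by simp [eq_comm, h1]), Finset.prod_pair hne, conductor_one, one_mul,
    conductor_inv, pow_two]

theorem three_chars_conductor {n : ℕ} [NeZero n] (X : Subgroup (DirichletCharacter ℂ n))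
    (h : Nat.card X = 3) : ∃ χ ∈ X, χ ≠ 1 := by
  by_contra hc
  push Not at hc
  rw [(Subgroup.eq_bot_iff_forall X).mpr hc, Subgroup.card_bot] at h
  omega

set_option backward.isDefEq.respectTransparency false in
/-- The characters of a cubic subfield of `ℚ(μ_n)`. -/
theorem exists_subgroup {n : ℕ} [NeZero n] {F : IntermediateField ℚ ℂ} [NumberField F]
    (h3 : Module.finrank ℚ F = 3) (hle : F ≤ rootsField n) :
    Nat.card (FA.AbelianZeta.fieldChars n (rootsField n) (restrict hle)) = 3 ∧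
      ∀ χ ∈ FA.AbelianZeta.fieldChars n (rootsField n) (restrict hle), χ ≠ 1 →
        (discr F).natAbs = χ.conductor ^ 2 := by
  have hcard : Nat.card (FA.AbelianZeta.fieldChars n (rootsField n) (restrict hle)) = 3 := by
    rw [FA.AbelianZeta.fieldChars, IsCyclotomicExtension.Rat.card_intermediateFieldEquivSubgroupChar]
    exact (restrictAlgEquiv hle).toLinearEquiv.finrank_eq.symm.trans h3
  refine ⟨hcard, fun χ hχ h1 => ?_⟩
  rw [FA.ConductorDiscr.discr_eq_prod (n := n) (rootsField n) (restrict hle) (restrictAlgEquiv hle).toRingEquiv,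
    prod_conductor_eq_sq _ hcard hχ h1]

set_option backward.isDefEq.respectTransparency false in
/-- A cyclic cubic field with conductor dividing `N` lies in `ℚ(μ_N)`. -/
theorem le_rootsField {N : ℕ} [NeZero N] {F : IntermediateField ℚ ℂ} [NumberField F] [IsGalois ℚ F]
    (h3 : Module.finrank ℚ F = 3) {f : ℕ} (hf : f ∣ N) (hd : (discr F).natAbs = f ^ 2) : F ≤ rootsField N := by
  haveI := isAbelianGalois_cubic F h3
  obtain ⟨n, hNn, hn, hle⟩ := exists_le_rootsField F N
  haveI : NeZero n := ⟨hn⟩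
  have hK := rootsField_mono hNn hn
  obtain ⟨-, hX⟩ := exists_subgroup h3 hle
  haveI : IsCyclotomicExtension {N} ℚ (restrict hK) := IsCyclotomicExtension.equiv {N} ℚ _ (restrictAlgEquiv hK)
  haveI : IsGalois ℚ (restrict hK) := IsCyclotomicExtension.isGalois {N} ℚ _
  have hsub : FA.AbelianZeta.fieldChars n (rootsField n) (restrict hle) ≤
      FA.AbelianZeta.fieldChars n (rootsField n) (restrict hK) := fun χ hχ => by
    rw [FA.AbelianZeta.fieldChars,
      IsCyclotomicExtension.Rat.mem_intermediateFieldEquivSubgroupChar_iff_conductor_dvd n (rootsField n) ℂ _ hNn]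
    rcases eq_or_ne χ 1 with rfl | h1
    · rw [conductor_one]
      exact one_dvd N
    · rwa [Nat.pow_left_injective two_ne_zero (show χ.conductor ^ 2 = f ^ 2 by rw [← hX χ hχ h1, hd])]
  have h := (IsCyclotomicExtension.Rat.intermediateFieldEquivSubgroupChar n (rootsField n) ℂ).le_iff_le.mp hsub
  intro x hx
  exact (mem_restrict hK ⟨x, hle hx⟩).mp (h ((mem_restrict hle ⟨x, hle hx⟩).mpr hx))

/-- Every cyclic cubic field has square discriminant `> 1`. -/
theorem exists_natAbs_discr_eq_sq {F : IntermediateField ℚ ℂ} [NumberField F] [IsGalois ℚ F]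
    (h3 : Module.finrank ℚ F = 3) : ∃ f : ℕ, 2 ≤ f ∧ (discr F).natAbs = f ^ 2 := by
  haveI := isAbelianGalois_cubic F h3
  obtain ⟨n, -, hn, hle⟩ := exists_le_rootsField F 1
  haveI : NeZero n := ⟨hn⟩
  obtain ⟨hcard, hX⟩ := exists_subgroup h3 hle
  obtain ⟨χ, hχ, h1⟩ := three_chars_conductor _ hcard
  refine ⟨χ.conductor, ?_, hX χ hχ h1⟩
  have := χ.conductor_ne_zero
  have : χ.conductor ≠ 1 := fun e => h1 (χ.eq_one_iff_conductor_eq_one.mpr e)
  omega

/-- Its sign. -/
theorem discr_nonneg_cubic {F : Type*} [Field F] [NumberField F] [IsGalois ℚ F]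
    (h3 : Module.finrank ℚ F = 3) : 0 ≤ discr F := by
  haveI : IsUnramifiedAtInfinitePlaces ℚ F := IsUnramifiedAtInfinitePlaces_of_odd_finrank (h3 ▸ by decide)
  have h := IsUnramifiedAtInfinitePlaces.card_infinitePlace ℚ F
  rw [InfinitePlace.card_eq_nrRealPlaces_add_nrComplexPlaces, Subsingleton.elim (Algebra.toModule) _, h3,
    Fintype.card_unique, one_mul] at h
  have h' := InfinitePlace.card_add_two_mul_card_eq_rank F
  have h0 : InfinitePlace.nrComplexPlaces F = 0 := by omega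
  have hs := NumberField.sign_discr F
  rw [h0, pow_zero] at hs
  exact (Int.sign_eq_one_iff_pos.mp hs).le

/-- The field of a character mod `N`. -/
def charField (N : ℕ) [NeZero N] (χ : DirichletCharacter ℂ N) : IntermediateField ℚ ℂ :=
  lift ((IsCyclotomicExtension.Rat.intermediateFieldEquivSubgroupChar N (rootsField N) ℂ).symm
    (Subgroup.zpowers χ))

theorem orderOf_eq_three {G : Type*} [Group G] {x : G} (h3 : x ^ 3 = 1) (h1 : x ≠ 1) : orderOf x = 3 :=
  haveI : Fact (Nat.Prime 3) := ⟨Nat.prime_three⟩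
  orderOf_eq_prime h3 h1

set_option backward.isDefEq.respectTransparency false in
theorem charField_mem {N : ℕ} [NeZero N] {χ : DirichletCharacter ℂ N} (h3 : χ ^ 3 = 1) (h1 : χ ≠ 1)
    {P : ℕ → Prop} (hP : P (χ.conductor ^ 2)) : charField N χ ∈ cubicFields P := by
  set iso := IsCyclotomicExtension.Rat.intermediateFieldEquivSubgroupChar N (rootsField N) ℂ with hiso
  set E := iso.symm (Subgroup.zpowers χ) with hE
  have hX : FA.AbelianZeta.fieldChars N (rootsField N) E = Subgroup.zpowers χ := iso.apply_symm_apply _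
  have hfr : Module.finrank ℚ E = 3 := by
    rw [← IsCyclotomicExtension.Rat.card_intermediateFieldEquivSubgroupChar N (rootsField N) ℂ E, ← hiso,
      hE, iso.apply_symm_apply, Nat.card_zpowers, orderOf_eq_three h3 h1]
  haveI : NumberField (lift E) := NumberField.of_ringEquiv _ (lift E) (liftAlgEquiv E).toRingEquiv
  haveI hnf : NumberField (charField N χ) := ‹NumberField (lift E)›
  refine ⟨?_, IsGalois.of_algEquiv (liftAlgEquiv E), hnf, ?_⟩
  · exact (liftAlgEquiv E).toLinearEquiv.finrank_eq.symm.trans hfr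
  · have hcard : Nat.card (FA.AbelianZeta.fieldChars N (rootsField N) E) = 3 := by
      rw [hX, Nat.card_zpowers, orderOf_eq_three h3 h1]
    show P (discr (lift E)).natAbs
    rw [FA.ConductorDiscr.discr_eq_prod (n := N) (rootsField N) E (liftAlgEquiv E).symm.toRingEquiv,
      prod_conductor_eq_sq _ hcard (hX ▸ Subgroup.mem_zpowers χ) h1]
    exact hP

set_option backward.isDefEq.respectTransparency false in
theorem charField_eq_iff {N : ℕ} [NeZero N] {χ ψ : DirichletCharacter ℂ N} (hχ3 : χ ^ 3 = 1) (hψ : ψ ≠ 1) :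
    charField N ψ = charField N χ ↔ ψ = χ ∨ ψ = χ⁻¹ := by
  rw [charField, charField, (lift_injective (rootsField N)).eq_iff, (OrderIso.injective _).eq_iff]
  constructor
  · intro h
    obtain ⟨k, rfl⟩ := Subgroup.mem_zpowers_iff.mp (h ▸ Subgroup.mem_zpowers ψ)
    have hk : χ ^ k = χ ^ (k % 3) := by
      conv_lhs => rw [← Int.emod_add_mul_ediv k 3, zpow_add, zpow_mul, show χ ^ (3 : ℤ) = 1 by exact_mod_cast hχ3,
        one_zpow, mul_one]
    rw [hk] at hψ ⊢
    have : k % 3 = 0 ∨ k % 3 = 1 ∨ k % 3 = 2 := by omega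
    rcases this with e | e | e <;> rw [e] at hψ ⊢
    · exact absurd (zpow_zero χ) hψ
    · exact Or.inl (zpow_one χ)
    · refine Or.inr (eq_inv_of_mul_eq_one_left ?_)
      rw [← hχ3, zpow_two]
      exact (pow_three' χ).symm
  · rintro (rfl | rfl)
    · rfl
    · exact Subgroup.zpowers_inv

/-- The fields whose conductor is in a finite set. -/
theorem two_mul_card_cubicFields (S : Finset ℕ) (hS : ∀ f ∈ S, 2 ≤ f) :
    (2 * Nat.card (cubicFields fun d => ∃ f ∈ S, d = f ^ 2) : ℤ) = ∑ f ∈ S, primCubic f := by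
  set N := ∏ f ∈ S, f with hNdef
  haveI : NeZero N := ⟨Finset.prod_ne_zero_iff.mpr fun f hf => by have := hS f hf; omega⟩
  have hdvd : ∀ f ∈ S, f ∣ N := fun f hf => Finset.dvd_prod_of_mem _ hf
  set T := Finset.univ.filter fun χ : DirichletCharacter ℂ N => χ ^ 3 = 1 ∧ χ.conductor ∈ S with hT
  have hT1 : ∀ χ ∈ T, χ ≠ 1 := fun χ hχ e => by
    have := hS _ (Finset.mem_filter.mp hχ).2.2
    rw [e, conductor_one] at this
    omega
  have himage : (T.image (charField N) : Set (IntermediateField ℚ ℂ)) =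
      cubicFields fun d => ∃ f ∈ S, d = f ^ 2 := by
    ext F
    simp only [Finset.coe_image, Set.mem_image, Finset.mem_coe]
    constructor
    · rintro ⟨χ, hχ, rfl⟩
      exact charField_mem (Finset.mem_filter.mp hχ).2.1 (hT1 χ hχ) ⟨_, (Finset.mem_filter.mp hχ).2.2, rfl⟩
    · rintro ⟨h3, hgal, hnf, f, hf, hd⟩
      have hle := le_rootsField (N := N) h3 (hdvd f hf) hd
      obtain ⟨hcard, hX⟩ := exists_subgroup h3 hle
      obtain ⟨χ, hχ, h1⟩ := three_chars_conductor _ hcard
      have hχ3 : χ ^ 3 = 1 := orderOf_dvd_iff_pow_eq_one.mp (hcard ▸ Subgroup.orderOf_dvd_natCard _ hχ)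
      have hc : χ.conductor = f := Nat.pow_left_injective two_ne_zero
        (show χ.conductor ^ 2 = f ^ 2 by rw [← hX χ hχ h1, hd])
      refine ⟨χ, Finset.mem_filter.mpr ⟨Finset.mem_univ _, hχ3, hc ▸ hf⟩, ?_⟩
      have hz : Subgroup.zpowers χ = FA.AbelianZeta.fieldChars N (rootsField N) (restrict hle) := by
        refine Subgroup.eq_of_le_of_card_ge (Subgroup.zpowers_le.mpr hχ) ?_
        rw [hcard, Nat.card_zpowers, orderOf_eq_three hχ3 h1]
      rw [charField, hz, FA.AbelianZeta.fieldChars, OrderIso.symm_apply_apply, lift_restrict]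
  have hcardT : T.card = 2 * (T.image (charField N)).card := by
    rw [Finset.card_eq_sum_card_image (charField N) T, Finset.sum_const_nat (m := 2) fun F hF => ?_, mul_comm]
    obtain ⟨χ, hχ, rfl⟩ := Finset.mem_image.mp hF
    have hne : χ ≠ χ⁻¹ := fun e => hT1 χ hχ <| by
      rw [← (Finset.mem_filter.mp hχ).2.1, pow_succ, pow_two, eq_inv_iff_mul_eq_one.mp e, one_mul]
    rw [← Finset.card_pair hne]
    congr 1
    ext ψ
    rw [Finset.mem_filter, Finset.mem_insert, Finset.mem_singleton]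
    refine ⟨fun h => (charField_eq_iff (Finset.mem_filter.mp hχ).2.1 (hT1 ψ h.1)).mp h.2, fun h => ?_⟩
    have hψ : ψ ∈ T := by
      rcases h with rfl | rfl
      · exact hχ
      · refine Finset.mem_filter.mpr ⟨Finset.mem_univ _, ?_, ?_⟩
        · rw [inv_pow, (Finset.mem_filter.mp hχ).2.1, inv_one]
        · rw [conductor_inv]
          exact (Finset.mem_filter.mp hχ).2.2
    exact ⟨hψ, (charField_eq_iff (Finset.mem_filter.mp hχ).2.1 (hT1 ψ hψ)).mpr h⟩
  have hsum : (T.card : ℤ) = ∑ f ∈ S, primCubic f := by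
    rw [Finset.card_eq_sum_card_fiberwise (f := fun χ => χ.conductor) (t := S)
      fun χ hχ => (Finset.mem_filter.mp hχ).2.2, Nat.cast_sum]
    refine Finset.sum_congr rfl fun f hf => ?_
    rw [← card_conductor_eq (hdvd f hf), Nat.card_eq_fintype_card, Fintype.card_subtype]
    congr 2
    ext χ
    simp only [hT, Finset.mem_filter, Finset.mem_univ, true_and]
    exact ⟨fun h => ⟨h.1.1, h.2⟩, fun h => ⟨⟨h.1, h.2 ▸ hf⟩, h.2⟩⟩
  rw [← himage, Nat.card_coe_set_eq, Set.ncard_coe_finset, ← hsum, hcardT]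
  push_cast
  rfl

/-- Fields up to a bound. -/
theorem two_mul_card_le (X : ℕ) :
    (2 * Nat.card (cubicFields fun d => d ≤ X) : ℤ) = ∑ f ∈ Finset.Ioc 1 X.sqrt, primCubic f := by
  rw [← two_mul_card_cubicFields (Finset.Ioc 1 X.sqrt) fun f hf => (Finset.mem_Ioc.mp hf).1,
    show cubicFields (fun d => d ≤ X) = cubicFields fun d => ∃ f ∈ Finset.Ioc 1 X.sqrt, d = f ^ 2 from ?_]
  ext F
  constructor
  · rintro ⟨h3, hgal, hnf, hd⟩
    obtain ⟨f, hf, hsq⟩ := exists_natAbs_discr_eq_sq h3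
    exact ⟨h3, hgal, hnf, f, Finset.mem_Ioc.mpr ⟨hf, Nat.le_sqrt'.mpr (hsq ▸ hd)⟩, hsq⟩
  · rintro ⟨h3, hgal, hnf, f, hf, hsq⟩
    exact ⟨h3, hgal, hnf, hsq ▸ Nat.le_sqrt'.mp (Finset.mem_Ioc.mp hf).2⟩

theorem finite_cubicFields_le (X : ℕ) : (cubicFields fun d => d ≤ X).Finite := by
  set N := ∏ f ∈ Finset.Ioc 1 X.sqrt, f with hN
  haveI : NeZero N := ⟨Finset.prod_ne_zero_iff.mpr fun f hf => by have := (Finset.mem_Ioc.mp hf).1; omega⟩
  refine (Finset.univ.image (charField N)).finite_toSet.subset ?_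
  rintro F ⟨h3, hgal, hnf, hd⟩
  obtain ⟨f, hf, hsq⟩ := exists_natAbs_discr_eq_sq h3
  have hfN : f ∣ N := Finset.dvd_prod_of_mem _ (Finset.mem_Ioc.mpr ⟨hf, Nat.le_sqrt'.mpr (hsq ▸ hd)⟩)
  have hle := le_rootsField (N := N) h3 hfN hsq
  obtain ⟨hcard, -⟩ := exists_subgroup h3 hle
  obtain ⟨χ, hχ, h1⟩ := three_chars_conductor _ hcard
  have hχ3 : χ ^ 3 = 1 := orderOf_dvd_iff_pow_eq_one.mp (hcard ▸ Subgroup.orderOf_dvd_natCard _ hχ)
  refine Finset.mem_coe.mpr (Finset.mem_image.mpr ⟨χ, Finset.mem_univ _, ?_⟩)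
  have hz : Subgroup.zpowers χ = FA.AbelianZeta.fieldChars N (rootsField N) (restrict hle) :=
    Subgroup.eq_of_le_of_card_ge (Subgroup.zpowers_le.mpr hχ)
      (by rw [hcard, Nat.card_zpowers, orderOf_eq_three hχ3 h1])
  rw [charField, hz, FA.AbelianZeta.fieldChars, OrderIso.symm_apply_apply, lift_restrict]

end FA.CubicCount
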