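import Fermat.Agent.CubicCount.CharCount
import Mathlib.NumberTheory.EulerProduct.Basic
import Mathlib.NumberTheory.ArithmeticFunction.Misc
import Mathlib.NumberTheory.ZetaValues
import Mathlib.Analysis.Normed.Group.Tannery
import Mathlib.Analysis.SpecialFunctions.Log.Summable
import Mathlib.Analysis.SpecialFunctions.Trigonometric.ArctanDeriv
import Mathlib.MeasureTheory.Integral.IntervalIntegral.FundThmCalculus
import Mathlib.Analysis.SpecialFunctions.Integrals.Basic

/-!
# The mean value of the number of primitive cubic characters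

`∑_{f ≤ N} g(f)`, with `g` the number of primitive cubic characters, is asymptotic to
`11√3/(18π) ∏_{p ≡ 1 (3)} (1 - 2/(p(p+1))) N`.
-/

set_option autoImplicit false
set_option linter.style.haveILetI false

noncomputable section

open ArithmeticFunction Filter
open scoped Classical ArithmeticFunction.zeta ArithmeticFunction.Moebius Topology Real

namespace FA.CubicCount

/-- The character of conductor `3`. -/
def chi3 : ArithmeticFunction ℤ :=
  ⟨fun n => if n % 3 = 1 then 1 else if n % 3 = 2 then -1 else 0, by simp⟩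

theorem chi3_apply (n : ℕ) : chi3 n = if n % 3 = 1 then 1 else if n % 3 = 2 then -1 else 0 := rfl

theorem chi3_mul (a b : ℕ) : chi3 (a * b) = chi3 a * chi3 b := by
  simp only [chi3_apply, Nat.mul_mod a b 3]
  have ha : a % 3 < 3 := Nat.mod_lt _ (by norm_num)
  have hb : b % 3 < 3 := Nat.mod_lt _ (by norm_num)
  interval_cases a % 3 <;> interval_cases b % 3 <;> decide

theorem chi3_isMultiplicative : chi3.IsMultiplicative :=
  ⟨rfl, fun {m n} _ => chi3_mul m n⟩

theorem chi3_add_three_mul (q i : ℕ) : chi3 (3 * q + i) = chi3 i := by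
  simp only [chi3_apply, Nat.mul_add_mod]

theorem chi3_mul_moebius_chi3 : chi3 * (μ : ArithmeticFunction ℤ).pmul chi3 = 1 := by
  ext n
  rw [mul_apply, ← coe_zeta_mul_moebius, mul_apply]
  have h : ∀ x ∈ n.divisorsAntidiagonal, chi3 x.1 * (μ : ArithmeticFunction ℤ).pmul chi3 x.2 =
      chi3 n * ((ζ : ArithmeticFunction ℤ) x.1 * μ x.2) := fun x hx => by
    obtain ⟨hx1, hn⟩ := Nat.mem_divisorsAntidiagonal.mp hx
    rw [pmul_apply, natCoe_apply, zeta_apply_ne (left_ne_zero_of_mul (hx1.trans_ne hn)), Nat.cast_one, one_mul,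
      ← hx1, chi3_mul]
    ring
  rw [Finset.sum_congr rfl h, ← Finset.mul_sum, ← mul_apply, coe_zeta_mul_moebius]
  rcases eq_or_ne n 1 with rfl | hn
  · rw [one_one, chi3_isMultiplicative.map_one, one_mul]
  · rw [one_apply_ne hn, mul_zero]

/-- The quotient of the counting series by `ζ(s) L(s, χ₋₃)`. -/
def corr : ArithmeticFunction ℤ := primCubic * μ * (μ : ArithmeticFunction ℤ).pmul chi3

theorem corr_isMultiplicative : corr.IsMultiplicative :=
  (primCubic_isMultiplicative.mul isMultiplicative_moebius).mul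
    (isMultiplicative_moebius.pmul chi3_isMultiplicative)

theorem corr_mul : corr * ((ζ : ArithmeticFunction ℤ) * chi3) = primCubic := by
  rw [corr, show primCubic * (μ : ArithmeticFunction ℤ) * (μ : ArithmeticFunction ℤ).pmul chi3 *
    ((ζ : ArithmeticFunction ℤ) * chi3) = primCubic * ((ζ : ArithmeticFunction ℤ) * μ) *
      (chi3 * (μ : ArithmeticFunction ℤ).pmul chi3) by ring, coe_zeta_mul_moebius, chi3_mul_moebius_chi3,
    mul_one, mul_one]

/-- Convolution with a function that vanishes at the higher powers of the primes. -/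
theorem mul_prime_pow (f A : ArithmeticFunction ℤ) {p : ℕ} (hp : p.Prime) (h1 : A 1 = 1)
    (h2 : ∀ j, A (p ^ (j + 2)) = 0) (k : ℕ) :
    (f * A) (p ^ (k + 1)) = f (p ^ (k + 1)) + A p * f (p ^ k) := by
  rw [mul_apply, Nat.sum_divisorsAntidiagonal' fun a b => f a * A b, Nat.sum_divisors_prime_pow hp,
    Finset.sum_range_succ', Finset.sum_range_succ', Finset.sum_eq_zero fun j _ => by
      rw [show j + 1 + 1 = j + 2 from rfl, h2 j, mul_zero]]
  rw [zero_add, zero_add, pow_zero, Nat.div_one, h1, pow_one,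
    show p ^ (k + 1) / p = p ^ k by rw [pow_succ, Nat.mul_div_cancel _ hp.pos]]
  ring

theorem primCubic_mul_moebius_prime_pow {p : ℕ} (hp : p.Prime) (k : ℕ) :
    (primCubic * (μ : ArithmeticFunction ℤ)) (p ^ (k + 1)) = primCubic (p ^ (k + 1)) - primCubic (p ^ k) := by
  rw [mul_prime_pow primCubic μ hp moebius_apply_one (fun j => by
    rw [moebius_apply_prime_pow hp (by omega), if_neg (by omega)]) k, moebius_apply_prime hp]
  ring

theorem corr_prime_pow {p : ℕ} (hp : p.Prime) (k : ℕ) :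
    corr (p ^ (k + 1)) = (primCubic * (μ : ArithmeticFunction ℤ)) (p ^ (k + 1)) -
      chi3 p * (primCubic * (μ : ArithmeticFunction ℤ)) (p ^ k) := by
  rw [corr, mul_prime_pow _ ((μ : ArithmeticFunction ℤ).pmul chi3) hp
    (by rw [pmul_apply, moebius_apply_one, chi3_isMultiplicative.map_one, one_mul])
    (fun j => by rw [pmul_apply, moebius_apply_prime_pow hp (by omega), if_neg (by omega), zero_mul]) k,
    pmul_apply, moebius_apply_prime hp]
  ring

theorem chi3_prime {p : ℕ} (hp : p.Prime) : chi3 p = if p % 3 = 1 then 1 else if p = 3 then 0 else -1 := by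
  rw [chi3_apply]
  split_ifs with h1 h2 h3 h3
  · rfl
  · omega
  · rfl
  · rfl
  · have := (Nat.prime_dvd_prime_iff_eq Nat.prime_three hp).mp (by omega)
    omega

theorem corr_one {p : ℕ} (hp : p.Prime) : corr p = if p = 3 then -1 else 0 := by
  have h := corr_prime_pow hp 0
  rw [primCubic_mul_moebius_prime_pow hp 0, zero_add, pow_one, pow_zero,
    (primCubic_isMultiplicative.mul isMultiplicative_moebius).map_one, primCubic_prime hp, primCubic_one,
    chi3_prime hp] at h
  rw [h]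
  split_ifs <;> omega

theorem corr_two {p : ℕ} (hp : p.Prime) :
    corr (p ^ 2) = if p % 3 = 1 then -3 else if p = 3 then 2 else -1 := by
  rw [corr_prime_pow hp 1, primCubic_mul_moebius_prime_pow hp 1, primCubic_mul_moebius_prime_pow hp 0,
    primCubic_prime_sq hp, pow_one, primCubic_prime hp, pow_zero, primCubic_one, chi3_prime hp]
  split_ifs <;> omega

theorem corr_three {p : ℕ} (hp : p.Prime) :
    corr (p ^ 3) = if p % 3 = 1 then 2 else if p = 3 then -2 else 0 := by
  rw [corr_prime_pow hp 2, primCubic_mul_moebius_prime_pow hp 2, primCubic_mul_moebius_prime_pow hp 1,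
    primCubic_prime_pow_ge hp 0, primCubic_prime_sq hp, pow_one, primCubic_prime hp, chi3_prime hp]
  split_ifs <;> omega

theorem corr_ge {p : ℕ} (hp : p.Prime) (k : ℕ) : corr (p ^ (k + 4)) = 0 := by
  rw [corr_prime_pow hp (k + 3), primCubic_mul_moebius_prime_pow hp (k + 3),
    primCubic_mul_moebius_prime_pow hp (k + 2), primCubic_prime_pow_ge hp (k + 1), primCubic_prime_pow_ge hp k]
  rcases k with _ | k
  · rw [primCubic_prime_sq hp, chi3_prime hp]
    split_ifs <;> omega
  · rw [show k + 1 + 2 = k + 3 from rfl, primCubic_prime_pow_ge hp k]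
    simp

/-- `h(n)/n`. -/
def weight (n : ℕ) : ℝ := (corr n : ℝ) / n

theorem weight_zero : weight 0 = 0 := by simp [weight]

theorem weight_one : weight 1 = 1 := by simp [weight, corr_isMultiplicative.map_one]

theorem weight_mul {m n : ℕ} (h : m.Coprime n) : weight (m * n) = weight m * weight n := by
  simp only [weight, corr_isMultiplicative.map_mul_of_coprime h, Int.cast_mul, Nat.cast_mul, mul_div_mul_comm]

theorem tsum_prime_pow_eq {p : ℕ} (hp : p.Prime) (f : ℤ → ℝ) (hf : f 0 = 0) :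
    ∑' e : ℕ, f (corr (p ^ e)) / ((p ^ e : ℕ) : ℝ) =
      f 1 + f (corr p) / p + f (corr (p ^ 2)) / (p : ℝ) ^ 2 + f (corr (p ^ 3)) / (p : ℝ) ^ 3 := by
  rw [tsum_eq_sum (s := Finset.range 4) fun e he => by
    obtain ⟨k, rfl⟩ : ∃ k, e = k + 4 := ⟨e - 4, by rw [Finset.mem_range] at he; omega⟩
    rw [corr_ge hp k, hf, zero_div]]
  simp only [Finset.sum_range_succ, Finset.range_zero, Finset.sum_empty, Nat.cast_pow, pow_zero, pow_one,
    corr_isMultiplicative.map_one, div_one, zero_add]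

theorem local_abs_le {p : ℕ} (hp : p.Prime) :
    ∑' e : ℕ, |weight (p ^ e)| ≤ Real.exp (6 / (p : ℝ) ^ 2) := by
  have h := tsum_prime_pow_eq hp (fun x => |(x : ℝ)|) (by simp)
  simp only [weight, abs_div, Nat.abs_cast]
  refine le_of_eq_of_le h (le_trans ?_ (Real.add_one_le_exp _))
  rw [corr_one hp, corr_two hp, corr_three hp]
  have h2 : (2 : ℝ) ≤ p := by exact_mod_cast hp.two_le
  rcases eq_or_ne p 3 with rfl | h3
  · norm_num
  · rw [if_neg h3]
    have e3 : (2 : ℝ) / (p : ℝ) ^ 3 ≤ 1 / (p : ℝ) ^ 2 := by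
      rw [div_le_div_iff₀ (by positivity) (by positivity)]
      nlinarith [pow_pos (show (0 : ℝ) < p by linarith) 2]
    have e2 : (1 : ℝ) / (p : ℝ) ^ 2 ≤ 3 / (p : ℝ) ^ 2 := by gcongr; norm_num
    have e1 : (0 : ℝ) ≤ 1 / (p : ℝ) ^ 2 := by positivity
    rw [show (6 : ℝ) / (p : ℝ) ^ 2 = 3 / (p : ℝ) ^ 2 + 3 * (1 / (p : ℝ) ^ 2) by ring]
    split_ifs <;> simp only [Int.cast_neg, Int.cast_ofNat, Int.cast_zero, Int.cast_one, abs_neg, abs_zero,
      abs_one, Nat.abs_ofNat, zero_div] <;> linarith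

theorem summable_weight : Summable weight := by
  refine Summable.of_abs ?_
  have hS : Summable fun n : ℕ => 6 / (n : ℝ) ^ 2 := by
    simpa [div_eq_mul_inv] using (Real.summable_nat_pow_inv.mpr one_lt_two).mul_left (6 : ℝ)
  refine summable_of_sum_range_le (c := Real.exp (∑' n : ℕ, 6 / (n : ℝ) ^ 2)) (fun n => abs_nonneg _) fun N => ?_
  obtain ⟨hs, hH⟩ := EulerProduct.summable_and_hasSum_factoredNumbers_prod_filter_prime_tsum
    (f := fun n => |weight n|) (by simp [weight_one]) (fun {m n} h => by rw [weight_mul h, abs_mul])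
    (fun {p} hp => summable_of_ne_finset_zero (s := Finset.range 4) fun e he => by
      obtain ⟨k, rfl⟩ : ∃ k, e = k + 4 := ⟨e - 4, by rw [Finset.mem_range] at he; omega⟩
      simp [weight, corr_ge hp k]) (Finset.range N)
  calc ∑ n ∈ Finset.range N, |weight n|
      = ∑ n ∈ (Finset.range N).subtype (· ∈ Nat.factoredNumbers (Finset.range N)), |weight n.1| := by
        rw [Finset.sum_subtype_eq_sum_filter (f := fun n => |weight n|)]
        refine (Finset.sum_filter_of_ne fun n hn h0 =>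
          Nat.mem_factoredNumbers.mpr ⟨fun e => h0 ?_, fun p hp => ?_⟩).symm
        · rw [e, weight_zero, abs_zero]
        · exact Finset.mem_range.mpr ((Nat.le_of_mem_primeFactorsList hp).trans_lt (Finset.mem_range.mp hn))
    _ ≤ ∏ p ∈ Finset.range N with p.Prime, ∑' e : ℕ, |weight (p ^ e)| :=
        sum_le_hasSum _ (fun _ _ => abs_nonneg _) hH
    _ ≤ ∏ p ∈ Finset.range N with p.Prime, Real.exp (6 / (p : ℝ) ^ 2) :=
        Finset.prod_le_prod (fun p _ => tsum_nonneg fun _ => abs_nonneg _)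
          fun p hp => local_abs_le (Finset.mem_filter.mp hp).2
    _ ≤ _ := by
        rw [← Real.exp_sum]
        exact Real.exp_le_exp.mpr (hS.sum_le_tsum _ fun _ _ => by positivity)

/-- The partial sums of a sequence weighted by `χ₋₃`. -/
theorem alternating_bounds {w : ℕ → ℝ} (hw : Antitone w) (h0 : ∀ i, 0 ≤ w i) (D : ℕ) :
    0 ≤ ∑ i ∈ Finset.range D, (chi3 (i + 1) : ℝ) * w i ∧
      ∑ i ∈ Finset.range D, (chi3 (i + 1) : ℝ) * w i ≤ w 0 := by
  suffices h : ∀ D, (if D % 3 = 1 then w D else 0) ≤ ∑ i ∈ Finset.range D, (chi3 (i + 1) : ℝ) * w i ∧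
      ∑ i ∈ Finset.range D, (chi3 (i + 1) : ℝ) * w i + (if D % 3 = 1 then 0 else w D) ≤ w 0 by
    obtain ⟨h1, h2⟩ := h D
    have := h0 D
    split_ifs at h1 h2 <;> exact ⟨by linarith, by linarith⟩
  intro D
  induction D with
  | zero => simp
  | succ D ih =>
    obtain ⟨h1, h2⟩ := ih
    have := hw (Nat.le_succ D)
    have := h0 (D + 1)
    rw [Finset.sum_range_succ, chi3_apply]
    have hD : D % 3 < 3 := Nat.mod_lt _ (by norm_num)
    have e := Nat.add_mod D 1 3
    interval_cases hr : D % 3 <;>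
      · norm_num at e
        norm_num [e] at h1 h2 ⊢
        exact ⟨by linarith, by linarith⟩

theorem sum_Ioc_eq_range {M : Type*} [AddCommMonoid M] (f : ℕ → M) (N : ℕ) :
    ∑ n ∈ Finset.Ioc 0 N, f n = ∑ i ∈ Finset.range N, f (i + 1) := by
  induction N with
  | zero => simp
  | succ N ih => rw [Finset.sum_Ioc_succ_top (Nat.zero_le _), Finset.sum_range_succ, ih]

/-- The summatory function of `1 * χ₋₃`. -/
def normCount (m : ℕ) : ℝ := ∑ i ∈ Finset.range m, (chi3 (i + 1) : ℝ) * ((m / (i + 1) : ℕ) : ℝ)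

theorem sum_zeta_mul_chi3 (m : ℕ) :
    ((∑ n ∈ Finset.Ioc 0 m, ((ζ : ArithmeticFunction ℤ) * chi3) n : ℤ) : ℝ) = normCount m := by
  rw [mul_comm, sum_Ioc_mul_zeta_eq_sum, sum_Ioc_eq_range, normCount, Int.cast_sum]
  push_cast
  rfl

theorem antitone_floor (m : ℕ) : Antitone fun i : ℕ => ((m / (i + 1) : ℕ) : ℝ) := fun a b hab =>
  Nat.cast_le.mpr (Nat.div_le_div_left (by omega) (by omega))

theorem normCount_le (m : ℕ) : |normCount m| ≤ m := by
  obtain ⟨h1, h2⟩ := alternating_bounds (antitone_floor m) (fun _ => Nat.cast_nonneg _) m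
  rw [normCount, abs_of_nonneg h1]
  simpa using h2

/-- The partial sums of `L(1, χ₋₃)`. -/
def partialL (q : ℕ) : ℝ := ∑ i ∈ Finset.range (3 * q), (chi3 (i + 1) : ℝ) / (i + 1 : ℕ)

theorem abs_chi3_le (n : ℕ) : |(chi3 n : ℝ)| ≤ 1 := by
  rw [chi3_apply]
  split_ifs <;> simp

theorem abs_normCount_sub_le {m q : ℕ} (h : 3 * q ≤ m) :
    |normCount m - m * partialL q| ≤ 3 * q + m / (3 * q + 1 : ℕ) := by
  obtain ⟨D, rfl⟩ := Nat.exists_eq_add_of_le h
  set m := 3 * q + D with hm
  have htail := alternating_bounds (w := fun i => ((m / (3 * q + i + 1) : ℕ) : ℝ))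
    (fun a b hab => antitone_floor m (Nat.add_le_add_left hab _)) (fun _ => Nat.cast_nonneg _) D
  have heq : ∀ i, chi3 (3 * q + i + 1) = chi3 (i + 1) := fun i => chi3_add_three_mul q (i + 1)
  simp only [Nat.add_zero] at htail
  rw [normCount, show Finset.range m = Finset.range (3 * q + D) from rfl, Finset.sum_range_add, partialL,
    Finset.mul_sum, add_sub_right_comm, ← Finset.sum_sub_distrib]
  simp only [heq]
  refine (abs_add_le _ _).trans (add_le_add ?_ ?_)
  · refine (Finset.abs_sum_le_sum_abs _ _).trans ((Finset.sum_le_sum (g := fun _ => (1 : ℝ)) fun i _ => ?_).trans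
      (by simp))
    have hi : (0 : ℝ) < (i + 1 : ℕ) := by positivity
    rw [show (chi3 (i + 1) : ℝ) * ((m / (i + 1) : ℕ) : ℝ) - (m : ℝ) * ((chi3 (i + 1) : ℝ) / (i + 1 : ℕ)) =
      (chi3 (i + 1) : ℝ) * (((m / (i + 1) : ℕ) : ℝ) - (m : ℝ) / (i + 1 : ℕ)) by ring, abs_mul]
    refine mul_le_one₀ (abs_chi3_le _) (abs_nonneg _) (abs_le.mpr ⟨?_, ?_⟩)
    · have hlt : m < (m / (i + 1) + 1) * (i + 1) := Nat.lt_mul_of_div_lt (Nat.lt_succ_self _) (Nat.succ_pos i)
      have := (div_lt_iff₀ hi).mpr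
        (show (m : ℝ) < ((m / (i + 1) : ℕ) + 1 : ℝ) * (i + 1 : ℕ) by exact_mod_cast hlt)
      linarith
    · linarith [Nat.cast_div_le (α := ℝ) (m := m) (n := i + 1)]
  · rw [abs_of_nonneg htail.1]
    exact htail.2.trans Nat.cast_div_le

theorem poly_identity (q : ℕ) (x : ℝ) :
    (1 + x + x ^ 2) * ∑ i ∈ Finset.range (3 * q), (chi3 (i + 1) : ℝ) * x ^ i = 1 - x ^ (3 * q) := by
  induction q with
  | zero => simp
  | succ q ih =>
    rw [show 3 * (q + 1) = 3 * q + 3 by ring, Finset.sum_range_add, mul_add, ih]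
    simp only [Finset.sum_range_succ, Finset.range_zero, Finset.sum_empty, add_assoc (3 * q), chi3_add_three_mul]
    norm_num [chi3_apply]
    ring

theorem integral_quadratic : ∫ x in (0 : ℝ)..1, (1 + x + x ^ 2)⁻¹ = π / (3 * √3) := by
  have hs : (√3) ^ 2 = 3 := Real.sq_sqrt (by norm_num)
  have hs0 : (√3) ≠ 0 := by positivity
  have hd : ∀ x : ℝ, HasDerivAt (fun x => 2 / √3 * Real.arctan ((2 * x + 1) / √3)) (1 + x + x ^ 2)⁻¹ x := by
    intro x
    have h := ((Real.hasDerivAt_arctan' ((2 * x + 1) / √3)).comp x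
      ((((hasDerivAt_id x).const_mul 2).add_const 1).div_const √3)).const_mul (2 / √3)
    refine h.congr_deriv ?_
    have : 0 < 1 + x + x ^ 2 := by nlinarith [sq_nonneg (2 * x + 1)]
    simp only [div_pow, hs]
    field_simp
    rw [hs]
    ring
  rw [intervalIntegral.integral_eq_sub_of_hasDerivAt (fun x _ => hd x)
    (Continuous.intervalIntegrable (Continuous.inv₀ (by fun_prop)
      fun x => ne_of_gt (by nlinarith [sq_nonneg (2 * x + 1)])) _ _)]
  rw [show (2 * (1 : ℝ) + 1) / √3 = √3 by rw [div_eq_iff hs0]; linarith [hs],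
    show (2 * (0 : ℝ) + 1) / √3 = (√3)⁻¹ by rw [mul_zero, zero_add, one_div],
    Real.arctan_sqrt_three, Real.arctan_inv_sqrt_three]
  field_simp
  ring

theorem abs_partialL_sub_le (q : ℕ) : |partialL q - π / (3 * √3)| ≤ 1 / (3 * q + 1 : ℕ) := by
  have hpos : ∀ x : ℝ, 0 < 1 + x + x ^ 2 := fun x => by nlinarith [sq_nonneg (2 * x + 1)]
  have hc : Continuous fun x : ℝ => (1 + x + x ^ 2)⁻¹ :=
    Continuous.inv₀ (by fun_prop) fun x => (hpos x).ne'
  have hA : partialL q = ∫ x in (0 : ℝ)..1, ((1 + x + x ^ 2)⁻¹ - x ^ (3 * q) * (1 + x + x ^ 2)⁻¹) := by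
    rw [intervalIntegral.integral_congr (g := fun x => ∑ i ∈ Finset.range (3 * q), (chi3 (i + 1) : ℝ) * x ^ i)
      fun x _ => by
        show _ = _
        rw [← one_sub_mul, ← poly_identity, mul_comm _ (Finset.sum _ _), mul_assoc,
          mul_inv_cancel₀ (hpos x).ne', mul_one],
      intervalIntegral.integral_finsetSum fun i _ => (Continuous.intervalIntegrable (by fun_prop) _ _)]
    refine Finset.sum_congr rfl fun i _ => ?_
    rw [intervalIntegral.integral_const_mul, integral_pow]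
    simp [div_eq_mul_inv]
  have hc2 : Continuous fun x : ℝ => x ^ (3 * q) * (1 + x + x ^ 2)⁻¹ := (continuous_pow _).mul hc
  rw [hA, intervalIntegral.integral_sub (hc.intervalIntegrable _ _) (hc2.intervalIntegrable _ _),
    integral_quadratic, sub_sub_cancel_left, abs_neg,
    abs_of_nonneg (intervalIntegral.integral_nonneg zero_le_one fun x hx =>
      mul_nonneg (pow_nonneg hx.1 _) (inv_nonneg.mpr (hpos x).le))]
  calc ∫ x in (0 : ℝ)..1, x ^ (3 * q) * (1 + x + x ^ 2)⁻¹ ≤ ∫ x in (0 : ℝ)..1, x ^ (3 * q) := by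
        refine intervalIntegral.integral_mono_on zero_le_one (hc2.intervalIntegrable _ _)
          ((continuous_pow _).intervalIntegrable _ _) fun x hx => ?_
        refine mul_le_of_le_one_right (pow_nonneg hx.1 _) (inv_le_one_of_one_le₀ ?_)
        nlinarith [hx.1]
    _ = _ := by rw [integral_pow]; simp

theorem tendsto_normCount : Tendsto (fun m : ℕ => normCount m / m) atTop (𝓝 (π / (3 * √3))) := by
  rw [Metric.tendsto_atTop]
  intro ε hε
  obtain ⟨q, hq⟩ := exists_nat_gt (4 / ε)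
  obtain ⟨M, hM⟩ := exists_nat_gt (6 * q / ε)
  refine ⟨max (M + 1) (3 * q), fun m hm => ?_⟩
  have hm0 : (0 : ℝ) < m := Nat.cast_pos.mpr (by omega)
  have h1 := abs_normCount_sub_le (le_of_max_le_right hm)
  have h2 := abs_partialL_sub_le q
  have h3 : 1 / ((3 * q + 1 : ℕ) : ℝ) < ε / 4 := by
    rw [div_lt_iff₀ hε] at hq
    rw [div_lt_div_iff₀ (by positivity) (by norm_num)]
    push_cast
    nlinarith [(Nat.cast_nonneg q : (0 : ℝ) ≤ q)]
  have h4 : 3 * (q : ℝ) / m < ε / 2 := by
    rw [div_lt_iff₀ hε] at hM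
    rw [div_lt_div_iff₀ hm0 two_pos]
    have : (M : ℝ) < m := Nat.cast_lt.mpr (by omega)
    nlinarith
  have h5 : |normCount m / m - partialL q| ≤ 3 * (q : ℝ) / m + 1 / ((3 * q + 1 : ℕ) : ℝ) := by
    rw [show normCount m / m - partialL q = (normCount m - m * partialL q) / m by field_simp, abs_div,
      abs_of_pos hm0, div_le_iff₀ hm0, add_mul, div_mul_cancel₀ _ hm0.ne', one_div_mul_eq_div]
    exact h1
  rw [Real.dist_eq]
  calc |normCount m / m - π / (3 * √3)| ≤ |normCount m / m - partialL q| + |partialL q - π / (3 * √3)| :=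
        abs_sub_le _ _ _
    _ < ε := by linarith

theorem tendsto_normCount_div (n : ℕ) (hn : n ≠ 0) :
    Tendsto (fun N : ℕ => normCount (N / n) / N) atTop (𝓝 (π / (3 * √3) / n)) := by
  have h1 := tendsto_normCount.comp (Nat.tendsto_div_const_atTop hn)
  have h2 : Tendsto (fun N : ℕ => ((N / n : ℕ) : ℝ) / N) atTop (𝓝 (1 / n)) := by
    have hn0 : (0 : ℝ) < n := Nat.cast_pos.mpr (Nat.pos_of_ne_zero hn)
    refine tendsto_of_tendsto_of_tendsto_of_le_of_le' (g := fun N : ℕ => 1 / (n : ℝ) - 1 / N)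
      (by simpa using tendsto_const_nhds.sub (tendsto_one_div_atTop_nhds_zero_nat (𝕜 := ℝ)))
      tendsto_const_nhds ?_ ?_
    · filter_upwards [eventually_gt_atTop 0] with N hN
      have hN' : (0 : ℝ) < N := Nat.cast_pos.mpr hN
      have hlt : (N : ℝ) < ((N / n : ℕ) + 1 : ℝ) * n := by
        exact_mod_cast Nat.lt_mul_of_div_lt (Nat.lt_succ_self (N / n)) (Nat.pos_of_ne_zero hn)
      rw [sub_le_iff_le_add, ← add_div, div_le_div_iff₀ hn0 hN']
      linarith
    · filter_upwards [eventually_gt_atTop 0] with N hN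
      have hN' : (0 : ℝ) < N := Nat.cast_pos.mpr hN
      rw [div_le_div_iff₀ hN' hn0, one_mul]
      exact_mod_cast Nat.div_mul_le_self N n
  have h := h1.mul h2
  rw [mul_one_div] at h
  refine h.congr fun N => ?_
  simp only [Function.comp]
  rcases eq_or_ne (N / n) 0 with h0 | h0
  · simp [h0, normCount]
  · rw [div_mul_div_cancel₀ (Nat.cast_ne_zero.mpr h0)]

/-- **The mean value.** -/
theorem tendsto_sum_primCubic :
    Tendsto (fun N : ℕ => ((∑ f ∈ Finset.Ioc 0 N, primCubic f : ℤ) : ℝ) / N) atTop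
      (𝓝 ((∑' n, weight n) * (π / (3 * √3)))) := by
  rw [← tsum_mul_right]
  have hrw : ∀ N : ℕ, ((∑ f ∈ Finset.Ioc 0 N, primCubic f : ℤ) : ℝ) / N =
      ∑' n, (corr n : ℝ) * (normCount (N / n) / N) := fun N => by
    rw [tsum_eq_sum (s := Finset.Ioc 0 N) fun n hn => by
      rw [Finset.mem_Ioc, not_and, not_le] at hn
      rcases Nat.eq_zero_or_pos n with rfl | hn0
      · simp
      · simp [Nat.div_eq_of_lt (hn hn0), normCount]]
    rw [← corr_mul, sum_Ioc_mul_eq_sum_sum, Int.cast_sum, Finset.sum_div]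
    refine Finset.sum_congr rfl fun n _ => ?_
    rw [Int.cast_mul, sum_zeta_mul_chi3, mul_div_assoc]
  simp only [hrw]
  refine tendsto_tsum_of_dominated_convergence (bound := fun n => |weight n|) summable_weight.abs
    (fun n => ?_) (Eventually.of_forall fun N n => ?_)
  · rcases eq_or_ne n 0 with rfl | hn
    · simp [weight]
    · rw [weight, div_mul_eq_mul_div, mul_div_assoc]
      exact (tendsto_normCount_div n hn).const_mul _
  · rcases eq_or_ne N 0 with rfl | hN
    · simp
    rcases eq_or_ne n 0 with rfl | hn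
    · simp
    rw [Real.norm_eq_abs, weight, abs_mul, abs_div (corr n : ℝ), Nat.abs_cast,
      ← mul_one_div |(corr n : ℝ)| (n : ℝ)]
    refine mul_le_mul_of_nonneg_left ?_ (abs_nonneg _)
    have hn' : (0 : ℝ) < n := Nat.cast_pos.mpr (Nat.pos_of_ne_zero hn)
    have hN' : (0 : ℝ) < N := Nat.cast_pos.mpr (Nat.pos_of_ne_zero hN)
    rw [abs_div, Nat.abs_cast, div_le_div_iff₀ hN' hn', one_mul]
    exact (mul_le_mul_of_nonneg_right (normCount_le _) hn'.le).trans (by exact_mod_cast Nat.div_mul_le_self N n)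

/-- `∏_{p ≡ 1 (3)} (1 - 2/(p(p+1)))`. -/
def splitProduct : ℝ :=
  ∏' p : Nat.Primes, if (p : ℕ) % 3 = 1 then 1 - 2 / ((p : ℝ) * ((p : ℝ) + 1)) else 1

/-- `n ↦ n⁻²`. -/
def invSq : ℕ →*₀ ℝ where
  toFun n := ((n : ℝ) ^ 2)⁻¹
  map_zero' := by simp
  map_one' := by simp
  map_mul' m n := by simp [mul_pow, mul_comm]

theorem hasProd_zeta_two : HasProd (fun p : Nat.Primes => (1 - ((p : ℝ) ^ 2)⁻¹)⁻¹) (π ^ 2 / 6) := by
  have hval : ∑' n : ℕ, invSq n = π ^ 2 / 6 := by
    rw [← hasSum_zeta_two.tsum_eq]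
    simp [invSq]
  have h := EulerProduct.eulerProduct_completely_multiplicative_hasProd (f := invSq)
    (by simp [invSq])
  rw [hval] at h
  exact h

theorem weight_local {p : ℕ} (hp : p.Prime) :
    ∑' e : ℕ, weight (p ^ e) = if p % 3 = 1 then 1 - 3 / (p : ℝ) ^ 2 + 2 / (p : ℝ) ^ 3 else
      if p = 3 then 22 / 27 else 1 - 1 / (p : ℝ) ^ 2 := by
  refine (tsum_prime_pow_eq hp (fun x => (x : ℝ)) Int.cast_zero).trans ?_
  rw [corr_one hp, corr_two hp, corr_three hp]
  split_ifs with h1 h2 <;> first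
    | omega
    | (subst_vars; norm_num; done)
    | (push_cast; ring)

theorem splitProduct_eq : splitProduct = (∑' n, weight n) * (π ^ 2 / 6) * (12 / 11) := by
  have h := ((EulerProduct.eulerProduct_hasProd weight_one weight_mul summable_weight.norm weight_zero).mul
    hasProd_zeta_two).mul (hasProd_ite_eq (⟨3, Nat.prime_three⟩ : Nat.Primes) (12 / 11 : ℝ))
  refine (h.congr_fun fun p => ?_).tprod_eq
  have hp := p.2
  have h2 : (2 : ℝ) ≤ (p : ℕ) := by exact_mod_cast hp.two_le
  have hne : ((p : ℕ) : ℝ) ^ 2 - 1 ≠ 0 := by nlinarith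
  rw [weight_local hp]
  rcases eq_or_ne p (⟨3, Nat.prime_three⟩ : Nat.Primes) with rfl | h
  · norm_num
  · have h3 : (p : ℕ) ≠ 3 := fun e => h (Subtype.ext e)
    simp only [h3, if_false]
    split_ifs <;> first
      | contradiction
      | (field_simp; done)
      | (field_simp; ring)

theorem mean_value_eq : (∑' n, weight n) * (π / (3 * √3)) = 11 * √3 / (18 * π) * splitProduct := by
  rw [splitProduct_eq]
  have hs : √3 * √3 = 3 := Real.mul_self_sqrt (by norm_num)
  field_simp
  linear_combination (-36 * ∑' n, weight n) * hs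

theorem splitProduct_ne_zero : splitProduct ≠ 0 := by
  have h : ∀ p : Nat.Primes, 0 ≤ 2 / ((p : ℝ) * ((p : ℝ) + 1)) ∧ 2 / ((p : ℝ) * ((p : ℝ) + 1)) < 1 ∧
      2 / ((p : ℝ) * ((p : ℝ) + 1)) ≤ 2 / (p : ℝ) ^ 2 := fun p => by
    have h2 : (2 : ℝ) ≤ (p : ℕ) := by exact_mod_cast p.2.two_le
    refine ⟨by positivity, (div_lt_one (by positivity)).mpr (by nlinarith), ?_⟩
    exact div_le_div_of_nonneg_left two_pos.le (by positivity) (by nlinarith)
  rw [splitProduct,
    show (fun p : Nat.Primes => if (p : ℕ) % 3 = 1 then 1 - 2 / ((p : ℝ) * ((p : ℝ) + 1)) else 1) =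
    fun p : Nat.Primes => 1 + (if (p : ℕ) % 3 = 1 then -(2 / ((p : ℝ) * ((p : ℝ) + 1))) else 0) by
      funext p; split_ifs <;> ring]
  refine tprod_one_add_ne_zero_of_summable (fun p => ?_) ?_
  · split_ifs
    · linarith [(h p).2.1]
    · norm_num
  · refine Summable.of_nonneg_of_le (fun _ => norm_nonneg _) (fun p => ?_)
      ((((Real.summable_nat_pow_inv.mpr one_lt_two).mul_left (2 : ℝ)).congr
        fun n => (div_eq_mul_inv _ _).symm).comp_injective
        (Subtype.val_injective (p := Nat.Prime)))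
    split_ifs
    · rw [norm_neg, Real.norm_of_nonneg (h p).1]
      exact (h p).2.2
    · simp only [norm_zero, Function.comp]
      positivity

theorem tendsto_sum_primCubic' :
    Tendsto (fun N : ℕ => ((∑ f ∈ Finset.Ioc 0 N, primCubic f : ℤ) : ℝ) / N) atTop
      (𝓝 (11 * √3 / (18 * π) * splitProduct)) :=
  mean_value_eq ▸ tendsto_sum_primCubic

theorem splitProduct_pos : 0 < splitProduct := by
  have h : 0 ≤ 11 * √3 / (18 * π) * splitProduct :=
    ge_of_tendsto' tendsto_sum_primCubic' fun N =>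
      div_nonneg (by exact_mod_cast Finset.sum_nonneg fun f _ => primCubic_nonneg f) (Nat.cast_nonneg _)
  refine lt_of_le_of_ne (nonneg_of_mul_nonneg_right h (by positivity)) splitProduct_ne_zero.symm

end FA.CubicCount
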