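import Mathlib.NumberTheory.ArithmeticFunction.Moebius
import Mathlib.NumberTheory.DirichletCharacter.Orthogonality
import Mathlib.NumberTheory.MulChar.Duality
import Mathlib.RingTheory.RootsOfUnity.AlgebraicallyClosed
import Mathlib.RingTheory.ZMod.UnitsCyclic
import Mathlib.Analysis.Complex.Polynomial.Basic

/-!
# Counting cubic Dirichlet characters

The number of primitive cubic characters of conductor `f` is multiplicative in `f`; at prime powers it is `2` at the
primes `p ≡ 1 (mod 3)` and at `9`, and `0` otherwise.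
-/

set_option autoImplicit false
set_option linter.style.haveILetI false

noncomputable section

open DirichletCharacter ArithmeticFunction
open scoped Classical ArithmeticFunction.zeta ArithmeticFunction.Moebius

namespace FA.CubicCount

/-- The number of primitive characters mod `f` with `χ ^ 3 = 1`. -/
def primCubic : ArithmeticFunction ℤ :=
  ⟨fun f => if f = 0 then 0 else
    (Nat.card {χ : DirichletCharacter ℂ f // χ ^ 3 = 1 ∧ χ.conductor = f} : ℤ), if_pos rfl⟩

/-- The number of cube roots of unity mod `n`. -/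
def cubeRoots : ArithmeticFunction ℤ :=
  ⟨fun n => if n = 0 then 0 else (Nat.card {u : (ZMod n)ˣ // u ^ 3 = 1} : ℤ), if_pos rfl⟩

theorem primCubic_apply {f : ℕ} (hf : f ≠ 0) :
    primCubic f = (Nat.card {χ : DirichletCharacter ℂ f // χ ^ 3 = 1 ∧ χ.conductor = f} : ℤ) := if_neg hf

theorem cubeRoots_apply {n : ℕ} (hn : n ≠ 0) :
    cubeRoots n = (Nat.card {u : (ZMod n)ˣ // u ^ 3 = 1} : ℤ) := if_neg hn

theorem primCubic_nonneg (f : ℕ) : 0 ≤ primCubic f := by
  rcases eq_or_ne f 0 with rfl | hf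
  · simp
  · rw [primCubic_apply hf]
    exact Int.natCast_nonneg _

theorem card_cubicChars (n : ℕ) [NeZero n] :
    Nat.card {χ : DirichletCharacter ℂ n // χ ^ 3 = 1} = Nat.card {u : (ZMod n)ˣ // u ^ 3 = 1} := by
  haveI : NeZero (Monoid.exponent (ZMod n)ˣ : ℂ) :=
    ⟨Nat.cast_ne_zero.mpr (Monoid.exponent_ne_zero_of_finite (G := (ZMod n)ˣ))⟩
  obtain ⟨e⟩ := MulChar.mulEquiv_units (ZMod n) ℂ
  refine Nat.card_congr (e.toEquiv.subtypeEquiv fun χ => ?_)
  rw [MulEquiv.toEquiv_eq_coe, MulEquiv.coe_toEquiv, ← map_pow, EmbeddingLike.map_eq_one_iff]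

/-- The characters mod `n` with a given conductor. -/
theorem card_conductor_eq {n d : ℕ} [NeZero n] (h : d ∣ n) :
    (Nat.card {χ : DirichletCharacter ℂ n // χ ^ 3 = 1 ∧ χ.conductor = d} : ℤ) = primCubic d := by
  have hd : d ≠ 0 := ne_zero_of_dvd_ne_zero (NeZero.ne n) h
  rw [primCubic_apply hd, Nat.cast_inj]
  refine (Nat.card_congr (Equiv.ofBijective
    (fun ψ : {χ : DirichletCharacter ℂ d // χ ^ 3 = 1 ∧ χ.conductor = d} =>
      (⟨changeLevel h ψ.1, by rw [← map_pow, ψ.2.1, map_one], by rw [conductor_changeLevel, ψ.2.2]⟩ :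
        {χ : DirichletCharacter ℂ n // χ ^ 3 = 1 ∧ χ.conductor = d})) ⟨fun ψ ψ' e => ?_, fun χ => ?_⟩)).symm
  · exact Subtype.ext (changeLevel_injective h (congrArg Subtype.val e))
  · obtain ⟨χ, h3, hc⟩ := χ
    subst hc
    refine ⟨⟨χ.primitiveCharacter, changeLevel_injective h ?_, χ.primitiveCharacter_isPrimitive⟩, ?_⟩
    · rw [map_pow, map_one, changeLevel_primitiveCharacter, h3]
    · exact Subtype.ext (changeLevel_primitiveCharacter χ)

theorem primCubic_mul_zeta : primCubic * (ζ : ArithmeticFunction ℤ) = cubeRoots := by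
  ext n
  rcases eq_or_ne n 0 with rfl | hn
  · simp
  haveI : NeZero n := ⟨hn⟩
  have h := Finset.card_eq_sum_card_fiberwise (f := fun χ : DirichletCharacter ℂ n => χ.conductor)
    (s := Finset.univ.filter fun χ => χ ^ 3 = 1) (t := n.divisors)
    fun χ _ => Nat.mem_divisors.mpr ⟨χ.conductor_dvd_level, hn⟩
  rw [coe_mul_zeta_apply, cubeRoots_apply hn, ← card_cubicChars, Nat.card_eq_fintype_card,
    Fintype.card_subtype, h, Nat.cast_sum]
  refine Finset.sum_congr rfl fun d hd => ?_
  rw [← card_conductor_eq (Nat.mem_divisors.mp hd).1, Nat.card_eq_fintype_card, Fintype.card_subtype,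
    Finset.filter_filter]

theorem primCubic_eq : primCubic = cubeRoots * (μ : ArithmeticFunction ℤ) := by
  rw [← primCubic_mul_zeta, mul_assoc, coe_zeta_mul_moebius, mul_one]

theorem cubeRoots_isMultiplicative : cubeRoots.IsMultiplicative := by
  refine IsMultiplicative.iff_ne_zero.mpr ⟨?_, fun {m n} hm hn h => ?_⟩
  · rw [cubeRoots_apply one_ne_zero]
    have : Unique {u : (ZMod 1)ˣ // u ^ 3 = 1} :=
      { default := ⟨1, one_pow 3⟩, uniq := fun u => Subtype.ext (Subsingleton.elim _ _) }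
    rw [Nat.card_unique, Nat.cast_one]
  · rw [cubeRoots_apply (mul_ne_zero hm hn), cubeRoots_apply hm, cubeRoots_apply hn, ← Nat.cast_mul,
      Nat.cast_inj, ← Nat.card_prod]
    let e := (Units.mapEquiv (ZMod.chineseRemainder h).toMulEquiv).trans MulEquiv.prodUnits
    refine Nat.card_congr ((e.toEquiv.subtypeEquiv (q := fun v : (ZMod m)ˣ × (ZMod n)ˣ =>
      v.1 ^ 3 = 1 ∧ v.2 ^ 3 = 1) fun u => ?_).trans
        (Equiv.subtypeProdEquivProd (p := fun a : (ZMod m)ˣ => a ^ 3 = 1) (q := fun b : (ZMod n)ˣ => b ^ 3 = 1)))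
    rw [← EmbeddingLike.map_eq_one_iff (f := e), map_pow, Prod.ext_iff]
    rfl

theorem primCubic_isMultiplicative : primCubic.IsMultiplicative := by
  rw [primCubic_eq]
  exact cubeRoots_isMultiplicative.mul isMultiplicative_moebius

theorem primCubic_one : primCubic 1 = 1 := primCubic_isMultiplicative.map_one

/-- `φ(p ^ (k + 1))` is a multiple of `3` only for `p ≡ 1 (mod 3)` and for `9 ∣ p ^ (k + 1)`. -/
theorem three_dvd_totient_iff {p : ℕ} (hp : p.Prime) (k : ℕ) :
    3 ∣ (p ^ (k + 1)).totient ↔ p % 3 = 1 ∨ (p = 3 ∧ 1 ≤ k) := by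
  rw [Nat.totient_prime_pow_succ hp, Nat.prime_three.dvd_mul]
  constructor
  · rintro (h | h)
    · obtain ⟨j, rfl⟩ : ∃ j, k = j + 1 := ⟨k - 1, by
        rcases k with _ | k
        · simp at h
        · omega⟩
      exact Or.inr ⟨((Nat.prime_dvd_prime_iff_eq Nat.prime_three hp).mp (Nat.prime_three.dvd_of_dvd_pow h)).symm,
        by omega⟩
    · have := hp.two_le
      omega
  · rintro (h | ⟨rfl, hk⟩)
    · exact Or.inr (by omega)
    · exact Or.inl (dvd_pow_self 3 (by omega))

theorem cubeRoots_prime_pow {p : ℕ} (hp : p.Prime) (k : ℕ) :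
    cubeRoots (p ^ (k + 1)) = if p % 3 = 1 ∨ (p = 3 ∧ 1 ≤ k) then 3 else 1 := by
  have hn : p ^ (k + 1) ≠ 0 := pow_ne_zero _ hp.ne_zero
  haveI : NeZero (p ^ (k + 1)) := ⟨hn⟩
  have hcard : Nat.card (ZMod (p ^ (k + 1)))ˣ = (p ^ (k + 1)).totient := by
    rw [Nat.card_eq_fintype_card, ZMod.card_units_eq_totient]
  rw [cubeRoots_apply hn]
  split_ifs with hc
  · have hp2 : p ≠ 2 := by
      rintro rfl
      omega
    haveI := ZMod.isCyclic_units_of_prime_pow p hp hp2 (k + 1)
    have h := IsCyclic.card_powMonoidHom_ker (G := (ZMod (p ^ (k + 1)))ˣ) 3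
    rw [hcard, Nat.gcd_eq_right ((three_dvd_totient_iff hp k).mpr hc)] at h
    exact congrArg (Nat.cast : ℕ → ℤ) h
  · have : Unique {u : (ZMod (p ^ (k + 1)))ˣ // u ^ 3 = 1} :=
      { default := ⟨1, one_pow 3⟩
        uniq := fun u => Subtype.ext <| by
          have h := pow_gcd_eq_one.mpr ⟨u.2, pow_card_eq_one' (x := u.1)⟩
          rwa [hcard, (Nat.prime_three.coprime_iff_not_dvd.mpr
            (mt (three_dvd_totient_iff hp k).mp hc)).gcd_eq_one, pow_one] at h }
    rw [Nat.card_unique, Nat.cast_one]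

theorem primCubic_prime_pow {p : ℕ} (hp : p.Prime) (k : ℕ) :
    primCubic (p ^ (k + 1)) = cubeRoots (p ^ (k + 1)) - cubeRoots (p ^ k) := by
  rw [← primCubic_mul_zeta, coe_mul_zeta_apply, coe_mul_zeta_apply, Nat.sum_divisors_prime_pow hp,
    Nat.sum_divisors_prime_pow hp, Finset.sum_range_succ _ (k + 1)]
  ring

theorem primCubic_prime {p : ℕ} (hp : p.Prime) : primCubic p = if p % 3 = 1 then 2 else 0 := by
  have h := primCubic_prime_pow hp 0
  rw [pow_zero, cubeRoots_isMultiplicative.map_one, cubeRoots_prime_pow hp 0] at h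
  rw [show p = p ^ (0 + 1) from (pow_one p).symm, h]
  simp only [zero_add, pow_one]
  split_ifs with h1 h2 <;> omega

theorem primCubic_prime_sq {p : ℕ} (hp : p.Prime) : primCubic (p ^ 2) = if p = 3 then 2 else 0 := by
  rw [primCubic_prime_pow hp 1, cubeRoots_prime_pow hp 1, cubeRoots_prime_pow hp 0]
  split_ifs <;> omega

theorem primCubic_prime_pow_ge {p : ℕ} (hp : p.Prime) (k : ℕ) : primCubic (p ^ (k + 3)) = 0 := by
  rw [primCubic_prime_pow hp (k + 2), cubeRoots_prime_pow hp (k + 2), cubeRoots_prime_pow hp (k + 1)]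
  split_ifs <;> omega

end FA.CubicCount
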